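import Mathlib
import Fermat.Agent.S36.KContractE

/-!
# S36, the `q = 2` assembler, layer 0: `KLevel.Holds` from CHART-level data

`KContractE.holds_of_hyp` (the bundled `K`-level contract at `E`-level) asks for the three
vertical primes as ideals of the OVERLAP ring of the coordinate `u`.  The producers of the
chart-`u` facts (`SqExit.Hyp`, cusps, thick points) speak about ideals of the CHART ring.

* `exists_overlap_primes'` : primes of a chart ring not containing the coordinate are the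
  contractions of primes of the overlap ring;
* `holds_of_chart` : `KContractE.holds_of_hyp` with the vertical primes `Pc`, `pc` given on the
  chart rings; the data at the fibre `u⁻¹ = 0` (`hsep`, `h11inf`, `hreg`) are asked for every
  family of overlap primes contracting to `Pc` (and every family contracting to `pc`);
* `holds_of_chart_two` : the same at `q = 2`.  The middle component is reduced (`k = 1`), so the
  multiplicity identity `hmult`, the `ε`-hypothesis `h11` on `P₁₁` and its twin `h11inf` at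
  infinity are trivial and disappear from the list.
-/

set_option autoImplicit false
set_option linter.unusedSectionVars false
set_option linter.unusedVariables false
set_option linter.style.haveILetI false
set_option synthInstance.maxHeartbeats 400000
set_option maxHeartbeats 1000000

open Polynomial AlgebraicCurve ModularCurve
open Fermat.Agent.S30.Model Fermat.Agent.S30.Model.GlueChart
open Fermat.Agent.S34.Nodal Fermat.Agent.S34.Nodal.ChartTransfer
open Fermat.Agent.S36.RootGlue Fermat.Agent.S36.Contract Fermat.Agent.S36.PrinAt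
open Fermat.Agent.S36.InvKUnit

namespace Fermat.Agent.S36.KInst9

open Fermat.Agent.S18.K1Defs Fermat.Agent.S30 Fermat.Agent.S30.E4
open Fermat.Agent.S34.TwoPrimesRank (alphaHom)
open Fermat.Agent.S36.SqRankE (betaHom)

local notation "Qb" => AlgebraicClosure ℚ

/-! ### Primes of a chart ring and primes of the overlap -/

section OverlapPrimes

variable {O L : Type*} [CommRing O] [Field L] [Algebra O L]

/-- Primes of a chart ring not containing the coordinate are the contractions of primes of the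
overlap ring. -/
theorem exists_overlap_primes' {ι : Type*} (u : L) (hu : u ≠ 0)
    (Pc : ι → Ideal (Chart O u)) (hP : ∀ i, (Pc i).IsPrime)
    (hnot : ∀ i, tZero u ∉ Pc i) :
    ∃ P : ι → Ideal (Overlap O u), (∀ i, (P i).IsPrime) ∧
      (fun i => (P i).comap (toOverlapZero O u)) = Pc := by
  have h01 : toOverlapZero O u (tZero u) * toOverlapInf O u (ChartInf.tInf u) = 1 :=
    toOverlapZero_tZero_mul u hu
  have hinj0 : Function.Injective (toOverlapZero O u) := inclHom_injective _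
  have hloc0 := exists_pow_mul_toOverlapZero (O := O) u hu
  refine ⟨fun i => (Pc i).map (toOverlapZero O u), fun i => ?_, funext fun i => ?_⟩
  · exact (map_isPrime_and_comap_map (toOverlapZero O u) (tZero u) _ h01 hinj0 hloc0 (Pc i)
      (hP i) (hnot i)).1
  · exact (map_isPrime_and_comap_map (toOverlapZero O u) (tZero u) _ h01 hinj0 hloc0 (Pc i)
      (hP i) (hnot i)).2

/-- The two inclusions into the overlap agree on constants. -/
theorem toOverlapZero_algebraMap (u : L) (a : O) :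
    toOverlapZero O u (algebraMap O (Chart O u) a)
      = toOverlapInf O u (algebraMap O (Chart O u⁻¹) a) :=
  Subtype.ext rfl

end OverlapPrimes

/-! ### The trivial identities on a reduced component -/

section Reduced

variable {B : Type*} [CommRing B]

/-- The multiplicity identity at a reduced component (`q = 2`, exponent `q - 1 = 1`). -/
theorem hmult_one (P : Ideal B) (hP : P.IsPrime) (ϖ : B) (hϖ : ϖ ∈ P) :
    ∃ δ ∈ P, ∃ a₀ b₀ : B, a₀ ∉ P ∧ a₀ * ϖ = b₀ * δ ^ (2 - 1) :=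
  ⟨ϖ, hϖ, 1, 1, fun h1 => hP.ne_top ((Ideal.eq_top_iff_one _).2 h1), by
    rw [one_mul, one_mul]; exact (pow_one ϖ).symm⟩

/-- The `ε`-hypothesis at a reduced component (exponent `1`): take `δ = π`,
`a₀ = b₀ = A = E' = 1`. -/
theorem h11_one (P y : Ideal B) (hP : P.IsPrime) (hy : y ≠ ⊤) (ϖ' ϖ : B) (hϖ : ϖ ∈ P)
    (hϖ0 : ϖ ≠ 0) (e : ϖ' = ϖ) :
    ∃ δ ∈ P, δ ≠ 0 ∧ ∃ a0 b0 A' E' : B, a0 * ϖ' = b0 * δ ^ 1 ∧ b0 ∉ P ∧
      a0 * A' - b0 * E' ∈ P ∧ E' ∉ y := by
  have h1P : (1 : B) ∉ P := fun h1 => hP.ne_top ((Ideal.eq_top_iff_one _).2 h1)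
  have h1y : (1 : B) ∉ y := fun h1 => hy ((Ideal.eq_top_iff_one _).2 h1)
  refine ⟨ϖ, hϖ, hϖ0, 1, 1, 1, 1, ?_, h1P, ?_, h1y⟩
  · rw [one_mul, one_mul, pow_one, e]
  · rw [sub_self]; exact Ideal.zero_mem _

end Reduced

/-! ### The assembly from chart-level data -/

section Generic

variable (L q : ℕ) [NeZero L] [NeZero q] (E : IntermediateField ℚ Qb)
  {O : Type*} [CommRing O] [IsDomain O] [IsDiscreteValuationRing O]
  [Algebra O E] [IsFractionRing O E]
  [Algebra O (LE (L * q) E)] [IsScalarTower O E (LE (L * q) E)]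
  [Algebra O (LE L E)] [IsScalarTower O E (LE L E)]

/-- **`KLevel.Holds` at `E`-level from chart-level data**: `KContractE.holds_of_hyp` with the
vertical primes given on the chart rings (`Pc i`, `pc j`, not containing the coordinates). -/
theorem holds_of_chart (hq : q.Prime) (hqL : q ∣ L) (hq2 : ¬ q ^ 2 ∣ L)
    (π ζ : O) (hπ : Irreducible π) (m : ℕ) (hqm : q.Coprime m) (hm0 : m ≠ 0)
    (hπq : π ∣ (q : O))
    (u : LE (L * q) E) (hu : Transcendental E u)
    [FiniteDimensional (IntermediateField.adjoin E {u}) (LE (L * q) E)]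
    (u1 : LE L E) (hu1 : Transcendental E u1)
    [FiniteDimensional (IntermediateField.adjoin E {u1}) (LE L E)]
    -- the vertical primes, on the chart rings
    (Pc : Fin 3 → Ideal (Chart O u)) (pc : Fin 2 → Ideal (Chart O u1))
    (hPc : ∀ i, tZero u ∉ Pc i) (hpc : ∀ j, tZero u1 ∉ pc j)
    -- the chart maps
    (φa₀ : Chart O u1 →+* Chart O u)
    (hφa₀ : ∀ x : Chart O u1, ((φa₀ x : Chart O u) : LE (L * q) E) = alphaHom L q E (x : LE L E))
    (φa₁ : Chart O u1⁻¹ →+* Chart O u⁻¹)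
    (hφa₁ : ∀ x : Chart O u1⁻¹,
      ((φa₁ x : Chart O u⁻¹) : LE (L * q) E) = alphaHom L q E (x : LE L E))
    (hinta : φa₁.IsIntegral)
    (φb₀ : Chart O u1 →+* Chart O u)
    (hφb₀ : ∀ x : Chart O u1, ((φb₀ x : Chart O u) : LE (L * q) E) = betaHom L q E (x : LE L E))
    (φb₁ : Chart O u1⁻¹ →+* Chart O u⁻¹)
    (hφb₁ : ∀ x : Chart O u1⁻¹, ((φb₁ x : Chart O u⁻¹) : LE (L * q) E) = betaHom L q E (x : LE L E))
    (hintb : φb₁.IsIntegral)
    -- the chart `u`: the C2 exit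
    (k : ℕ)
    (h : SqExit.Hyp φa₀ φb₀ (algebraMap O (Chart O u1) π) (pc 1) (pc 0) (Pc 1) (Pc 0) (Pc 2) k)
    (red : pc 1 ⊓ pc 0 ≤ Ideal.span {algebraMap O (Chart O u1) π})
    (hded : ∀ i : Fin 3, IsDedekindDomain (Chart O u ⧸ Pc i))
    (hradα : ∀ c : Chart O u, ∃ r : Chart O u1, c ^ q - φa₀ r ∈ Pc 0)
    (hradβ : ∀ c : Chart O u, ∃ r : Chart O u1, c ^ q - φb₀ r ∈ Pc 1)
    (hmult : ∃ δ ∈ Pc 2, ∃ a₀ b₀ : Chart O u,
      a₀ ∉ Pc 2 ∧ a₀ * algebraMap O (Chart O u) π = b₀ * δ ^ (q - 1))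
    -- the chart `u`: pointwise data
    (good : Ideal (Chart O u) → Prop)
    (h0 : ∀ y : Ideal (Chart O u), y.IsMaximal → good y → Pc 0 ≤ y → Pc 1 ≤ y → Pc 2 ≤ y →
      ∃ t', t' ≠ 0 ∧ PrinAt (y.comap φa₀) (pc 0) t')
    (h11 : ∀ y : Ideal (Chart O u), y.IsMaximal → good y → Pc 2 ≤ y → ¬ Pc 1 ≤ y → ¬ Pc 0 ≤ y →
      ∃ δ ∈ Pc 2, δ ≠ 0 ∧ ∃ a0 b0 A' E' : Chart O u,
        a0 * φa₀ (algebraMap O (Chart O u1) π) = b0 * δ ^ k ∧ b0 ∉ Pc 2 ∧
        a0 * A' - b0 * E' ∈ Pc 2 ∧ E' ∉ y)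
    (hcusp : ∀ y : Ideal (Chart O u), y.IsMaximal → ¬ good y → ∀ i : Fin 3, Pc i ≤ y →
      ∃ t' ∈ Pc i, ∀ x ∈ Pc i, ∃ s : Chart O u, s ∉ y ∧ s * x ∈ Ideal.span {t'})
    -- the fibre `u⁻¹ = 0` of the chart `u⁻¹`, for the overlap primes over `Pc`
    (hinf : ∀ (P : Fin 3 → Ideal (Overlap O u)) (p : Fin 2 → Ideal (Overlap O u1)),
      (∀ i, (P i).IsPrime) → (∀ j, (p j).IsPrime) →
      (∀ i, (P i).comap (toOverlapZero O u) = Pc i) →
      (∀ j, (p j).comap (toOverlapZero O u1) = pc j) →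
      (∀ M : Ideal (Chart O u⁻¹), M.IsMaximal → ChartInf.tInf u ∈ M → ∀ i j, i ≠ j →
        (P i).comap (toOverlapInf O u) ≤ M → (P j).comap (toOverlapInf O u) ≤ M → False) ∧
      (∀ M : Ideal (Chart O u⁻¹), M.IsMaximal → ChartInf.tInf u ∈ M →
        (P 2).comap (toOverlapInf O u) ≤ M → ∃ δ ∈ (P 2).comap (toOverlapInf O u), δ ≠ 0 ∧
        ∃ a0 b0 A' E' : Chart O u⁻¹, a0 * algebraMap O (Chart O u⁻¹) π = b0 * δ ^ k ∧
          b0 ∉ (P 2).comap (toOverlapInf O u) ∧
          a0 * A' - b0 * E' ∈ (P 2).comap (toOverlapInf O u) ∧ E' ∉ M) ∧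
      (∀ M : Ideal (Chart O u⁻¹), M.IsMaximal → ChartInf.tInf u ∈ M → ∀ i,
        (P i).comap (toOverlapInf O u) ≤ M →
        ∃ θ ∈ M, ∀ y ∈ M, ∃ c, c ∉ M ∧
          c * y ∈ (P i).comap (toOverlapInf O u) ⊔ Ideal.span {θ})) :
    KLevel.Holds π ζ q m ((q + 1) * (q - 1) * q) u u1 u1 (NormEPack.NaE L q E)
      (NormEPack.NbE L q E) := by
  have hu0 : u ≠ 0 := fun h0 => hu (h0 ▸ isAlgebraic_zero)
  have hu10 : u1 ≠ 0 := fun h0 => hu1 (h0 ▸ isAlgebraic_zero)
  have hPprime : ∀ i, (Pc i).IsPrime := by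
    intro i
    fin_cases i
    · exact h.P0_prime
    · exact h.Poo_prime
    · exact h.P11_prime
  have hpprime : ∀ j, (pc j).IsPrime := by
    intro j
    fin_cases j
    · exact h.p0_prime
    · exact h.poo_prime
  obtain ⟨P, hP, hPeq⟩ := exists_overlap_primes' (O := O) u hu0 Pc hPprime hPc
  obtain ⟨p, hp, hpeq⟩ := exists_overlap_primes' (O := O) u1 hu10 pc hpprime hpc
  obtain ⟨hsep, h11inf, hreg⟩ := hinf P p hP hp (fun i => congrFun hPeq i)
    (fun j => congrFun hpeq j)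
  subst hPeq
  subst hpeq
  haveI := hP
  exact KContractE.holds_of_hyp L q E hq hqL hq2 π ζ hπ m hqm hm0 hπq u hu u1 hu1 P p hp φa₀ hφa₀
    φa₁ hφa₁ hinta φb₀ hφb₀ φb₁ hφb₁ hintb k h red hded hradα hradβ hmult good h0 h11 hcusp hsep
    h11inf hreg

end Generic

/-! ### `q = 2`: the middle component is reduced -/

section Two

variable (L : ℕ) [NeZero L] (E : IntermediateField ℚ Qb)
  {O : Type*} [CommRing O] [IsDomain O] [IsDiscreteValuationRing O]
  [Algebra O E] [IsFractionRing O E]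
  [Algebra O (LE (L * 2) E)] [IsScalarTower O E (LE (L * 2) E)]
  [Algebra O (LE L E)] [IsScalarTower O E (LE L E)]

set_option maxHeartbeats 4000000 in
/-- **`KLevel.Holds` at `q = 2` from chart-level data.**  Against `holds_of_chart`: `k = 1`,
and `hmult`, `h11`, `h11inf` are discharged (take `δ = π`, `a₀ = b₀ = A = E' = 1`). -/
theorem holds_of_chart_two (hqL : 2 ∣ L) (hq2 : ¬ 2 ^ 2 ∣ L)
    (π ζ : O) (hπ : Irreducible π) (m : ℕ) (hqm : Nat.Coprime 2 m) (hm0 : m ≠ 0)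
    (hπq : π ∣ ((2 : ℕ) : O))
    (u : LE (L * 2) E) (hu : Transcendental E u)
    [FiniteDimensional (IntermediateField.adjoin E {u}) (LE (L * 2) E)]
    (u1 : LE L E) (hu1 : Transcendental E u1)
    [FiniteDimensional (IntermediateField.adjoin E {u1}) (LE L E)]
    -- the vertical primes, on the chart rings
    (Pc : Fin 3 → Ideal (Chart O u)) (pc : Fin 2 → Ideal (Chart O u1))
    (hPc : ∀ i, tZero u ∉ Pc i) (hpc : ∀ j, tZero u1 ∉ pc j)
    -- the chart maps
    (φa₀ : Chart O u1 →+* Chart O u)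
    (hφa₀ : ∀ x : Chart O u1, ((φa₀ x : Chart O u) : LE (L * 2) E) = alphaHom L 2 E (x : LE L E))
    (φa₁ : Chart O u1⁻¹ →+* Chart O u⁻¹)
    (hφa₁ : ∀ x : Chart O u1⁻¹,
      ((φa₁ x : Chart O u⁻¹) : LE (L * 2) E) = alphaHom L 2 E (x : LE L E))
    (hinta : φa₁.IsIntegral)
    (φb₀ : Chart O u1 →+* Chart O u)
    (hφb₀ : ∀ x : Chart O u1, ((φb₀ x : Chart O u) : LE (L * 2) E) = betaHom L 2 E (x : LE L E))
    (φb₁ : Chart O u1⁻¹ →+* Chart O u⁻¹)
    (hφb₁ : ∀ x : Chart O u1⁻¹, ((φb₁ x : Chart O u⁻¹) : LE (L * 2) E) = betaHom L 2 E (x : LE L E))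
    (hintb : φb₁.IsIntegral)
    -- the chart `u`: the C2 exit
    (h : SqExit.Hyp φa₀ φb₀ (algebraMap O (Chart O u1) π) (pc 1) (pc 0) (Pc 1) (Pc 0) (Pc 2) 1)
    (red : pc 1 ⊓ pc 0 ≤ Ideal.span {algebraMap O (Chart O u1) π})
    (hded : ∀ i : Fin 3, IsDedekindDomain (Chart O u ⧸ Pc i))
    (hradα : ∀ c : Chart O u, ∃ r : Chart O u1, c ^ 2 - φa₀ r ∈ Pc 0)
    (hradβ : ∀ c : Chart O u, ∃ r : Chart O u1, c ^ 2 - φb₀ r ∈ Pc 1)
    -- the chart `u`: pointwise data
    (good : Ideal (Chart O u) → Prop)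
    (h0 : ∀ y : Ideal (Chart O u), y.IsMaximal → good y → Pc 0 ≤ y → Pc 1 ≤ y → Pc 2 ≤ y →
      ∃ t', t' ≠ 0 ∧ PrinAt (y.comap φa₀) (pc 0) t')
    (hcusp : ∀ y : Ideal (Chart O u), y.IsMaximal → ¬ good y → ∀ i : Fin 3, Pc i ≤ y →
      ∃ t' ∈ Pc i, ∀ x ∈ Pc i, ∃ s : Chart O u, s ∉ y ∧ s * x ∈ Ideal.span {t'})
    -- the fibre `u⁻¹ = 0` of the chart `u⁻¹`, for the overlap primes over `Pc`
    (hinf : ∀ (P : Fin 3 → Ideal (Overlap O u)) (p : Fin 2 → Ideal (Overlap O u1)),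
      (∀ i, (P i).IsPrime) → (∀ j, (p j).IsPrime) →
      (∀ i, (P i).comap (toOverlapZero O u) = Pc i) →
      (∀ j, (p j).comap (toOverlapZero O u1) = pc j) →
      (∀ M : Ideal (Chart O u⁻¹), M.IsMaximal → ChartInf.tInf u ∈ M → ∀ i j, i ≠ j →
        (P i).comap (toOverlapInf O u) ≤ M → (P j).comap (toOverlapInf O u) ≤ M → False) ∧
      (∀ M : Ideal (Chart O u⁻¹), M.IsMaximal → ChartInf.tInf u ∈ M → ∀ i,
        (P i).comap (toOverlapInf O u) ≤ M →
        ∃ θ ∈ M, ∀ y ∈ M, ∃ c, c ∉ M ∧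
          c * y ∈ (P i).comap (toOverlapInf O u) ⊔ Ideal.span {θ})) :
    KLevel.Holds π ζ 2 m 6 u u1 u1 (NormEPack.NaE L 2 E) (NormEPack.NbE L 2 E) := by
  -- `α π = π` on the chart rings
  have hαπ : φa₀ (algebraMap O (Chart O u1) π) = algebraMap O (Chart O u) π := by
    apply Subtype.ext
    rw [hφa₀]
    exact KContractE.alphaHom_algebraMap_base L 2 E π
  haveI : IsIntegrallyClosed (Chart O u) := ContractInstChart.chart_isIntegrallyClosed u
  haveI : IsIntegrallyClosed (Chart O u1) := ContractInstChart.chart_isIntegrallyClosed u1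
  have hπmem : algebraMap O (Chart O u) π ∈ Pc 2 := by
    have h1 := h.π_mem_P11
    rw [hαπ] at h1
    exact h1
  have hπne : algebraMap O (Chart O u) π ≠ 0 := by
    intro h0
    have h1 : algebraMap O (LE (L * 2) E) π = 0 := congrArg Subtype.val h0
    rw [IsScalarTower.algebraMap_apply O E (LE (L * 2) E), map_eq_zero] at h1
    exact hπ.ne_zero ((IsFractionRing.injective O E) (h1.trans (map_zero _).symm))
  refine holds_of_chart L 2 E Nat.prime_two hqL hq2 π ζ hπ m hqm hm0 hπq u hu u1 hu1 Pc pc hPc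
    hpc φa₀ hφa₀ φa₁ hφa₁ hinta φb₀ hφb₀ φb₁ hφb₁ hintb 1 h red hded hradα hradβ ?_ good h0 ?_
    hcusp ?_
  · exact hmult_one (Pc 2) h.P11_prime _ hπmem
  · intro y hy _ _ _ _
    exact h11_one (Pc 2) y h.P11_prime hy.ne_top _ _ hπmem hπne hαπ
  · intro P p hP hp hPeq hpeq
    obtain ⟨hsep, hreg⟩ := hinf P p hP hp hPeq hpeq
    refine ⟨hsep, ?_, hreg⟩
    intro M hM _ _
    have hmem : algebraMap O (Chart O u⁻¹) π ∈ (P 2).comap (toOverlapInf O u) := by
      have h2 : algebraMap O (Chart O u) π ∈ (P 2).comap (toOverlapZero O u) :=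
        (hPeq 2).symm ▸ hπmem
      rw [Ideal.mem_comap] at h2 ⊢
      rw [← toOverlapZero_algebraMap]
      exact h2
    have hne : algebraMap O (Chart O u⁻¹) π ≠ 0 := by
      intro h0
      have h1 : algebraMap O (LE (L * 2) E) π = 0 := congrArg Subtype.val h0
      rw [IsScalarTower.algebraMap_apply O E (LE (L * 2) E), map_eq_zero] at h1
      exact hπ.ne_zero ((IsFractionRing.injective O E) (h1.trans (map_zero _).symm))
    haveI := hP 2
    exact h11_one ((P 2).comap (toOverlapInf O u)) M (Ideal.IsPrime.comap (toOverlapInf O u))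
      hM.ne_top _ _ hmem hne rfl

end Two

end Fermat.Agent.S36.KInst9
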