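import Mathlib
import Fermat.Agent.S36.KInst9.Base
import Fermat.Agent.S36.SqInstW
import Fermat.Agent.S36.SqChart.Coord9

/-!
# S36, the `q = 2` assembler, layer 1: the objects at the chart coordinate `u₉`

`A` a valuation ring of `ℚ̄` over `2`, `K` a number field inside the inertia field of `A` with
`𝒪_K = OE A K` a discrete valuation ring, `R` a level with `9 ∣ R`, `2 ∤ R`; levels `R`, `R · 2`,
`R · 2 · 2`, coordinate `u' = Haupt9.u9E R K h9`, `u₁ = α₁ u'`, `u₂ = α₂ α₁ u'`.  The objects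
are those of `S36/SqInstW` (family 1 = `SqChart/InstA`), algebra structures `InstA.algL`.

* `alphaHom_u9E`, `alphaSq_u9E`, transcendence and finiteness of the coordinates at the levels
  `M ℓ`, `M ℓ ℓ`;
* `pc9`, `Pc9` : the two / three vertical primes of the chart rings (kernels of the reductions
  of `SqInstW`, index convention `0 = zero component`, `1 = infinity`, `2 = middle`);
* `hyp9_w` (`SqInstW.hypE` at `u₉`), `hyp9` (`SqExit.Hyp` in the binder form of
  `KInst9.holds_of_chart_two`, exponent `1`);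
* `hpc9`, `hPc9` : the coordinate lies in none of the vertical primes.
-/

set_option autoImplicit false
set_option linter.unusedSectionVars false
set_option linter.unusedVariables false
set_option linter.style.haveILetI false
set_option synthInstance.maxHeartbeats 400000
set_option maxHeartbeats 1000000

open ModularCurve Polynomial

noncomputable section

namespace Fermat.Agent.S36.KInst9

open Fermat.Agent.S30 Fermat.Agent.S30.CSide
open Fermat.Agent.S18.K1Defs Fermat.Agent.S18.K1Main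
open Fermat.Agent.S34.TwoPrimesGauss Fermat.Agent.S34.TwoPrimesRank
open Fermat.Agent.S34.HauptU.Plug
open Fermat.Agent.S36.SqChart Fermat.Agent.S36.MultPrimesGauss Fermat.Agent.S36.CycloBase
open Fermat.Agent.S36.SqRankE Fermat.Agent.S36.SqChart.InstA
open Fermat.Agent.S36.Haupt9
open Fermat.Agent.S34.Nodal (Overlap toOverlapZero toOverlapInf)
open Fermat.Agent.S34.Nodal.ChartTransfer (tZero)

local notation "Qb" => AlgebraicClosure ℚ

/-! ### Small tools -/

theorem fin3_forall {X : Fin 3 → Prop} (h0 : X 0) (h1 : X 1) (h2 : X 2) : ∀ i, X i := by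
  intro i
  fin_cases i
  · exact h0
  · exact h1
  · exact h2

theorem fin2_forall {X : Fin 2 → Prop} (h0 : X 0) (h1 : X 1) : ∀ i, X i := by
  intro i
  fin_cases i
  · exact h0
  · exact h1

section ChartElts

variable {O L : Type*} [CommRing O] [IsDomain O] [IsDiscreteValuationRing O] [Field L]
  [Algebra O L]

/-- The coordinate as an element of its chart ring, in the two notations. -/
theorem polyChart_X_eq_tZero (u : L) : polyChart (O := O) u X = tZero u :=
  Subtype.ext (by rw [coe_polyChart, aeval_X]; rfl)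

/-- If `φ` maps the coordinate to the coordinate and `P` contracts to `p` along `φ`, then the
coordinate is not in `P` as soon as it is not in `p`. -/
theorem tZero_notMem_of_comap {L1 : Type*} [Field L1] [Algebra O L1] (u1 : L1) (u : L)
    (φ : Fermat.Agent.S34.Nodal.Chart O u1 →+* Fermat.Agent.S34.Nodal.Chart O u)
    (hφ : φ (tZero u1) = tZero u) (P : Ideal (Fermat.Agent.S34.Nodal.Chart O u))
    (p : Ideal (Fermat.Agent.S34.Nodal.Chart O u1)) (hc : P.comap φ = p) (hp : tZero u1 ∉ p) :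
    tZero u ∉ P := by
  intro hmem
  apply hp
  rw [← hc, Ideal.mem_comap, hφ]
  exact hmem

end ChartElts

/-- Transport of `SqExit.Hyp` along an equality of the uniformiser. -/
theorem hyp_congr_pi {B1 B2 : Type*} [CommRing B1] [CommRing B2] {α β : B1 →+* B2}
    {π1 π1' : B1} {poo p0 : Ideal B1} {Poo P0 P11 : Ideal B2} {k : ℕ}
    (h : SqExit.Hyp α β π1 poo p0 Poo P0 P11 k) (e : π1 = π1') :
    SqExit.Hyp α β π1' poo p0 Poo P0 P11 k := by
  subst e
  exact h

/-! ### The coordinate `u₉` at the levels `M ℓ`, `M ℓ ℓ` -/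

section Coord

variable (M ℓ : ℕ) [NeZero M] [NeZero ℓ] (E : IntermediateField ℚ Qb)

/-- `α u₉` is the Hauptmodul `u₉` of the level `M ℓ`. -/
theorem alphaHom_u9E (h9 : 9 ∣ M) :
    alphaHom M ℓ E (u9E M E h9) = u9E (M * ℓ) E (Dvd.dvd.mul_right h9 ℓ) := by
  apply Subtype.ext
  have h := Fermat.Agent.S34.Sat.sigma_alpha M ℓ E (u9E M E h9)
  rw [sigmaHom_apply] at h
  rw [h]
  rfl

/-- `α₂ α₁ u₉` is the Hauptmodul `u₉` of the level `M ℓ ℓ`. -/
theorem alphaSq_u9E (h9 : 9 ∣ M) :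
    alphaSq M ℓ E (u9E M E h9)
      = u9E (M * ℓ * ℓ) E (Dvd.dvd.mul_right (Dvd.dvd.mul_right h9 ℓ) ℓ) := by
  rw [alphaSq, RingHom.comp_apply, alphaHom_u9E, alphaHom_u9E]

theorem transcendental_alpha_u9E (h9 : 9 ∣ M) :
    Transcendental E (alphaHom M ℓ E (u9E M E h9)) := by
  rw [alphaHom_u9E]
  exact transcendental_u9E (M * ℓ) E _

theorem transcendental_alphaSq_u9E (h9 : 9 ∣ M) :
    Transcendental E (alphaSq M ℓ E (u9E M E h9)) := by
  rw [alphaSq_u9E]
  exact transcendental_u9E (M * ℓ * ℓ) E _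

/-- `LE (M ℓ) E` is finite over `E(α u₉)`. -/
theorem finite_alpha_u9E (h9 : 9 ∣ M) :
    FiniteDimensional (IntermediateField.adjoin E {alphaHom M ℓ E (u9E M E h9)})
      (LE (M * ℓ) E) := by
  rw [alphaHom_u9E]
  exact Coord9.finite_u9E (M * ℓ) E _

/-- `LE (M ℓ ℓ) E` is finite over `E(α₂ α₁ u₉)`. -/
theorem finite_alphaSq_u9E (h9 : 9 ∣ M) :
    FiniteDimensional (IntermediateField.adjoin E {alphaSq M ℓ E (u9E M E h9)})
      (LE (M * ℓ * ℓ) E) := by
  rw [alphaSq_u9E]
  exact Coord9.finite_u9E (M * ℓ * ℓ) E _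

end Coord

/-! ### The `E`-level objects at `q = 2`, `u' = u₉` -/

section ELevel

attribute [local instance] InstA.algL InstA.towerL

variable (A : ValuationSubring Qb) (hA : A.LiesOverPrime 2)
  (K : IntermediateField ℚ Qb) [FiniteDimensional ℚ K]
  (hK : A.inertiaSubgroupIn ℚ ≤ K.fixingSubgroup) {ζ₂ : Qb} (hζ₂ : IsPrimitiveRoot ζ₂ 2)
  [IsDiscreteValuationRing (OE A K)] [IsDiscreteValuationRing (OE A (cyclo K ζ₂))]
  (R : ℕ) [NeZero R] (h2R : ¬ 2 ∣ R) (h9 : 9 ∣ R)

/-- The `q`-expansion of `u₉` over `𝒪_K`. -/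
theorem hU9 : ((u9E R K h9 : LE R K) : LaurentSeries K)
    = GaussDVR.iota (OE A K) K (u9 (OE A K)) :=
  coe_u9E_eq_iota R K h9

local notation "u'" => u9E R K h9
local notation "UU" => u9 (OE A K)
local notation "hUU" => hU9 A K R h9
local notation "pr2" => Nat.prime_two
local notation "ϖ" => ((2 : ℕ) : OE A K)
local notation "B1" => Chart (OE A K) (alphaHom R 2 K (u9E R K h9))
local notation "B2" => Chart (OE A K) (alphaSq R 2 K (u9E R K h9))

/-- The two vertical primes of the level-`R · 2` chart ring: `pc9 0 = p_0`, `pc9 1 = p_∞`. -/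
def pc9 : Fin 2 → Ideal B1 :=
  ![RingHom.ker (SqInstW.redZero1 A pr2 hA K hK R h2R u' UU hUU),
    RingHom.ker (SqInstW.redInf1 A pr2 hA K hK R u' UU hUU)]

/-- The three vertical primes of the level-`R · 2 · 2` chart ring: `Pc9 0 = P_0`,
`Pc9 1 = P_∞`, `Pc9 2 = P_11`. -/
def Pc9 : Fin 3 → Ideal B2 :=
  ![RingHom.ker (SqInstW.redZero2 A pr2 hA K hK R h2R u' UU hUU),
    RingHom.ker (SqInstW.redInf2 A pr2 hA K hK R u' UU hUU),
    SqGlue.centreM (SqInstW.tauMid A pr2 hA K hK hζ₂ R h2R u' UU hUU) (SqInstW.lamMid A pr2 K hζ₂)]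

theorem pc9_zero : pc9 A hA K hK R h2R h9 0
    = RingHom.ker (SqInstW.redZero1 A pr2 hA K hK R h2R u' UU hUU) := rfl

theorem pc9_one : pc9 A hA K hK R h2R h9 1
    = RingHom.ker (SqInstW.redInf1 A pr2 hA K hK R u' UU hUU) := rfl

theorem Pc9_zero : Pc9 A hA K hK hζ₂ R h2R h9 0
    = RingHom.ker (SqInstW.redZero2 A pr2 hA K hK R h2R u' UU hUU) := rfl

theorem Pc9_one : Pc9 A hA K hK hζ₂ R h2R h9 1
    = RingHom.ker (SqInstW.redInf2 A pr2 hA K hK R u' UU hUU) := rfl

theorem Pc9_two : Pc9 A hA K hK hζ₂ R h2R h9 2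
    = SqGlue.centreM (SqInstW.tauMid A pr2 hA K hK hζ₂ R h2R u' UU hUU)
        (SqInstW.lamMid A pr2 K hζ₂) := rfl

/-- `piC` is the structure map of the chart ring. -/
theorem piC_eq_algebraMap (ϖ' : OE A K) :
    piC (alphaHom R 2 K u') ϖ' = algebraMap (OE A K) B1 ϖ' :=
  Subtype.ext rfl

variable (z : Qb) (hz : IsPrimitiveRoot z R) (hzK : z ∈ K)

include hz hzK in
/-- **The C2 exit at `u₉`, `q = 2`**, literally `SqInstW.hypE`. -/
theorem hyp9_w :
    SqExit.Hyp (SqInstW.alphaC (q := 2) A K R u')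
      (SqInstW.betaC (q := 2) A K R u' (hwu_u9E R K h9)) (piC (alphaHom R 2 K u') ϖ)
      (RingHom.ker (SqInstW.redInf1 A pr2 hA K hK R u' UU hUU))
      (RingHom.ker (SqInstW.redZero1 A pr2 hA K hK R h2R u' UU hUU))
      (RingHom.ker (SqInstW.redInf2 A pr2 hA K hK R u' UU hUU))
      (RingHom.ker (SqInstW.redZero2 A pr2 hA K hK R h2R u' UU hUU))
      (SqGlue.centreM (SqInstW.tauMid A pr2 hA K hK hζ₂ R h2R u' UU hUU)
        (SqInstW.lamMid A pr2 K hζ₂)) (2 - 1) := by
  haveI := Coord9.finite_u9E R K h9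
  haveI := Coord9.charP_two K A hA
  exact SqInstW.hypE A pr2 hA K hK hζ₂ R h2R u' UU hUU (hwu_u9E R K h9) (hwu_u9E' R K h9)
    Coord9.theta_rho_u9_ne_zero
    (Coord9.hprime_u9 R K A hA h9 h2R z hz hzK ϖ (InstA.irreducible_q A pr2 hA K hK))
    (Coord9.hcop_u9 2) Coord9.hord_u9 (qExpand_rho_u9 2 Nat.prime_two)

include hz hzK in
/-- **The C2 exit at `u₉`, `q = 2`**, in the binder form of `holds_of_chart_two`. -/
theorem hyp9 :
    SqExit.Hyp (SqInstW.alphaC (q := 2) A K R u')
      (SqInstW.betaC (q := 2) A K R u' (hwu_u9E R K h9)) (algebraMap (OE A K) B1 ϖ)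
      (pc9 A hA K hK R h2R h9 1) (pc9 A hA K hK R h2R h9 0)
      (Pc9 A hA K hK hζ₂ R h2R h9 1) (Pc9 A hA K hK hζ₂ R h2R h9 0)
      (Pc9 A hA K hK hζ₂ R h2R h9 2) 1 := by
  exact hyp_congr_pi (hyp9_w A hA K hK hζ₂ R h2R h9 z hz hzK) (piC_eq_algebraMap A K R h9 ϖ)

/-! #### The `E`-level block of `SqAbsW` at `q = 2` (names of `S36/SqInstW`) -/

local notation "hϖ" => InstA.irreducible_q A pr2 hA K hK
local notation "ψ" => inclOE A (le_cyclo K ζ₂)
local notation "φ" => inclE (le_cyclo K ζ₂)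
local notation "hψφ" => inclE_algebraMap A (le_cyclo K ζ₂)
local notation "α₁" => alphaHom R 2 K
local notation "β₁" => betaHom R 2 K
local notation "hα₁O" => alphaHom_algebraMap R 2 K (O := OE A K)
local notation "σ₁" => sigmaHom (R * 2) K
local notation "hσ₁O" => sigmaHom_algebraMap (R * 2) K (O := OE A K)
local notation "hσ₁frac" => sigmaHom_mem_fracField (R * 2) K A
local notation "hσ₁u" => SqInstW.sigma1_u A K R u' UU hUU
local notation "hσ₁β" => SqInstW.sigma1_beta (q := 2) K R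
local notation "w₁" => InstA.w1 pr2 K R h2R
local notation "hw₁O" => SqInstW.w1_algebraMap A pr2 K R h2R
local notation "hw₁α" => InstA.w1_alpha pr2 K R h2R
local notation "hw₁β" => InstA.w1_beta pr2 K R h2R
local notation "α₂" => alphaHom (R * 2) 2 K
local notation "β₂" => betaHom (R * 2) 2 K
local notation "hα₂O" => alphaHom_sq_algebraMap R 2 K (O := OE A K)
local notation "hβ₂O" => betaHom_sq_algebraMap R 2 K (O := OE A K)
local notation "σ" => sigmaHom (R * 2 * 2) K
local notation "hσO" => sigmaHom_algebraMap (R * 2 * 2) K (O := OE A K)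
local notation "hσfrac" => sigmaHom_mem_fracField (R * 2 * 2) K A
local notation "hσα₂" => SqInstW.sigma_alpha (q := 2) K R
local notation "hσβ₂" => SqInstW.sigma_beta (q := 2) K R
local notation "σ₀" => InstA.sig0 pr2 K R h2R
local notation "hσ₀O" => InstA.sig0_algebraMap pr2 K R h2R A
local notation "hσ₀frac" => InstA.sig0_mem_fracField pr2 K R h2R A
local notation "hσ₀α₂" => SqInstW.sig0_alpha' pr2 K R h2R
local notation "hσ₀β₂" => SqInstW.sig0_beta' pr2 K R h2R
local notation "σm" => InstA.sigM A pr2 hA K hζ₂ R h2R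
local notation "hσmO" => InstA.sigM_algebraMap A pr2 hA K hζ₂ R h2R
local notation "hσmfrac" => InstA.sigM_mem_fracField A pr2 hA K hζ₂ R h2R
local notation "z₀" => zetaU A pr2 K hζ₂
local notation "hz₀" => InstA.irreducible_zeta_sub_one A pr2 hA K hK hζ₂
local notation "hσmα₂" => SqInstW.sigM_alpha' A pr2 hA K hζ₂ R h2R
local notation "hσmβ₂" => SqInstW.sigM_beta' A pr2 hA K hζ₂ R h2R
local notation "hcomm" => SqInstW.comm_u (q := 2) K R u'

/-- The reduction of `u₉` does not vanish. -/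
theorem rho_u9_ne_zero : GaussDVR.rho (OE A K) UU ≠ 0 := fun h =>
  Coord9.hord_u9 (O := OE A K) (by rw [h, HahnSeries.order_zero])

/-- The coordinate `u₁` lies in neither vertical prime of the level-`R · 2` chart ring. -/
theorem hpc9 : ∀ j, tZero (O := OE A K) (alphaHom R 2 K u') ∉ pc9 A hA K hK R h2R h9 j := by
  have hρ := rho_u9_ne_zero (A := A) (K := K)
  refine fin2_forall ?_ ?_
  · intro hmem
    rw [pc9_zero, RingHom.mem_ker, ← polyChart_X_eq_tZero] at hmem
    have h1 : SqInstW.redZero1 A pr2 hA K hK R h2R u' UU hUU (polyChart (alphaHom R 2 K u') X)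
        = GaussDVR.rho (OE A K) (qExpand (OE A K) 2 UU) :=
      SqAbsW.rZ1_u1 ϖ hϖ 2 α₁ β₁ σ₁ hσ₁O hσ₁frac u' UU hσ₁u hσ₁β w₁ hw₁O hw₁α
    have h2 : GaussDVR.rho (OE A K) (qExpand (OE A K) 2 UU) = 0 := h1.symm.trans hmem
    have h3 : qExpand (IsLocalRing.ResidueField (OE A K)) 2 (GaussDVR.rho (OE A K) UU) = 0 :=
      (coeffMap_qExpand _ _ _).symm.trans h2
    exact hρ (qExpand_injective (R := IsLocalRing.ResidueField (OE A K)) (N := 2)
      (by rw [h3, map_zero]))
  · intro hmem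
    rw [pc9_one, RingHom.mem_ker, ← polyChart_X_eq_tZero] at hmem
    have h1 : SqInstW.redInf1 A pr2 hA K hK R u' UU hUU (polyChart (alphaHom R 2 K u') X)
        = GaussDVR.rho (OE A K) UU :=
      SqAbsW.rI1_u1 ϖ hϖ α₁ σ₁ hσ₁O hσ₁frac u' UU hσ₁u
    exact hρ (h1.symm.trans hmem)

include hz hzK in
/-- The coordinate `u₂` lies in none of the three vertical primes of the level-`R · 2 · 2`
chart ring. -/
theorem hPc9 : ∀ i, tZero (O := OE A K) (alphaSq R 2 K u') ∉ Pc9 A hA K hK hζ₂ R h2R h9 i := by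
  haveI : IsIntegrallyClosed B1 := SqAbs.isIntegrallyClosed_chart _
  haveI : IsIntegrallyClosed B2 := SqAbs.isIntegrallyClosed_chart _
  have h := hyp9 A hA K hK hζ₂ R h2R h9 z hz hzK
  have hp := hpc9 A hA K hK R h2R h9
  have e : tZero (O := OE A K) (alphaSq R 2 K u')
      = SqInstW.alphaC (q := 2) A K R u' (tZero (alphaHom R 2 K u')) := Subtype.ext rfl
  exact fin3_forall
    (tZero_notMem_of_comap _ _ _ e.symm _ _ h.comap_α_P0 (hp 0))
    (tZero_notMem_of_comap _ _ _ e.symm _ _ h.comap_α_Poo (hp 1))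
    (tZero_notMem_of_comap _ _ _ e.symm _ _ h.comap_α_P11 (hp 1))

end ELevel

end Fermat.Agent.S36.KInst9
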