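import Mathlib
import Fermat.Agent.S36.KInst9.U9
import Fermat.Agent.S36.CuspInstW9

/-!
# S36, the `q = 2` assembler: the cusp brick of the chart `u₂` at `u₉`

`hcusp9` : the binder `hcusp` of `KInst9.holds_of_chart_two` at the objects of `KInst9/U9`, with
`good y := u (u² + 9u + 27) ∉ y` (`u` the coordinate of the level-`R · 2 · 2` chart ring):
`CuspInstW9.hcusp_w9` (helper121) at the `E`-level block of `S36/SqInstW`, with
`J' = jE R K`, `v = 1`.
-/

set_option autoImplicit false
set_option linter.unusedSectionVars false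
set_option linter.unusedVariables false
set_option linter.style.haveILetI false
set_option synthInstance.maxHeartbeats 400000
set_option maxHeartbeats 1000000

open ModularCurve Polynomial

noncomputable section

namespace Fermat.Agent.S36.KInst9

open Fermat.Agent.S30 Fermat.Agent.S30.CSide
open Fermat.Agent.S18.K1Defs Fermat.Agent.S18.K1Main
open Fermat.Agent.S34.TwoPrimesGauss Fermat.Agent.S34.TwoPrimesRank
open Fermat.Agent.S34.HauptU.Plug
open Fermat.Agent.S36.SqChart Fermat.Agent.S36.MultPrimesGauss Fermat.Agent.S36.CycloBase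
open Fermat.Agent.S36.SqRankE Fermat.Agent.S36.SqChart.InstA
open Fermat.Agent.S36.Haupt9
open Fermat.Agent.S34.Nodal (Overlap toOverlapZero toOverlapInf)
open Fermat.Agent.S34.Nodal.ChartTransfer (tZero)

local notation "Qb" => AlgebraicClosure ℚ

attribute [local instance] InstA.algL InstA.towerL

variable (A : ValuationSubring Qb) (hA : A.LiesOverPrime 2)
  (K : IntermediateField ℚ Qb) [FiniteDimensional ℚ K]
  (hK : A.inertiaSubgroupIn ℚ ≤ K.fixingSubgroup) {ζ₂ : Qb} (hζ₂ : IsPrimitiveRoot ζ₂ 2)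
  [IsDiscreteValuationRing (OE A K)] [IsDiscreteValuationRing (OE A (cyclo K ζ₂))]
  (R : ℕ) [NeZero R] (h2R : ¬ 2 ∣ R) (h9 : 9 ∣ R)
  (z : Qb) (hz : IsPrimitiveRoot z R) (hzK : z ∈ K)

local notation "u'" => u9E R K h9
local notation "UU" => u9 (OE A K)
local notation "hUU" => hU9 A K R h9
local notation "pr2" => Nat.prime_two
local notation "ϖ" => ((2 : ℕ) : OE A K)
local notation "B1" => Chart (OE A K) (alphaHom R 2 K (u9E R K h9))
local notation "B2" => Chart (OE A K) (alphaSq R 2 K (u9E R K h9))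
local notation "hϖ" => InstA.irreducible_q A pr2 hA K hK
local notation "ψ" => inclOE A (le_cyclo K ζ₂)
local notation "φ" => inclE (le_cyclo K ζ₂)
local notation "hψφ" => inclE_algebraMap A (le_cyclo K ζ₂)
local notation "α₁" => alphaHom R 2 K
local notation "β₁" => betaHom R 2 K
local notation "hα₁O" => alphaHom_algebraMap R 2 K (O := OE A K)
local notation "σ₁" => sigmaHom (R * 2) K
local notation "hσ₁O" => sigmaHom_algebraMap (R * 2) K (O := OE A K)
local notation "hσ₁frac" => sigmaHom_mem_fracField (R * 2) K A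
local notation "hσ₁u" => SqInstW.sigma1_u A K R u' UU hUU
local notation "hσ₁β" => SqInstW.sigma1_beta (q := 2) K R
local notation "w₁" => InstA.w1 pr2 K R h2R
local notation "hw₁O" => SqInstW.w1_algebraMap A pr2 K R h2R
local notation "hw₁α" => InstA.w1_alpha pr2 K R h2R
local notation "hw₁β" => InstA.w1_beta pr2 K R h2R
local notation "α₂" => alphaHom (R * 2) 2 K
local notation "β₂" => betaHom (R * 2) 2 K
local notation "hα₂O" => alphaHom_sq_algebraMap R 2 K (O := OE A K)
local notation "hβ₂O" => betaHom_sq_algebraMap R 2 K (O := OE A K)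
local notation "σ" => sigmaHom (R * 2 * 2) K
local notation "hσO" => sigmaHom_algebraMap (R * 2 * 2) K (O := OE A K)
local notation "hσfrac" => sigmaHom_mem_fracField (R * 2 * 2) K A
local notation "hσα₂" => SqInstW.sigma_alpha (q := 2) K R
local notation "hσβ₂" => SqInstW.sigma_beta (q := 2) K R
local notation "σ₀" => InstA.sig0 pr2 K R h2R
local notation "hσ₀O" => InstA.sig0_algebraMap pr2 K R h2R A
local notation "hσ₀frac" => InstA.sig0_mem_fracField pr2 K R h2R A
local notation "hσ₀α₂" => SqInstW.sig0_alpha' pr2 K R h2R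
local notation "hσ₀β₂" => SqInstW.sig0_beta' pr2 K R h2R
local notation "σm" => InstA.sigM A pr2 hA K hζ₂ R h2R
local notation "hσmO" => InstA.sigM_algebraMap A pr2 hA K hζ₂ R h2R
local notation "hσmfrac" => InstA.sigM_mem_fracField A pr2 hA K hζ₂ R h2R
local notation "z₀" => zetaU A pr2 K hζ₂
local notation "hz₀" => InstA.irreducible_zeta_sub_one A pr2 hA K hK hζ₂
local notation "hσmα₂" => SqInstW.sigM_alpha' A pr2 hA K hζ₂ R h2R
local notation "hσmβ₂" => SqInstW.sigM_beta' A pr2 hA K hζ₂ R h2R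
local notation "hcomm" => SqInstW.comm_u (q := 2) K R u'

include hz hzK in
/-- **The cusp brick of the chart `u₂`, `q = 2`, `u' = u₉`**: at the closed points over the three
finite cusps `u (u² + 9u + 27) = 0`, each vertical prime through the point is locally principal. -/
theorem hcusp9 :
    ∀ y : Ideal B2, y.IsMaximal →
      ¬ (tZero (O := OE A K) (alphaSq R 2 K u')
          * (tZero (O := OE A K) (alphaSq R 2 K u') ^ 2
            + 9 * tZero (O := OE A K) (alphaSq R 2 K u') + 27) ∉ y) →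
      ∀ i : Fin 3, Pc9 A hA K hK hζ₂ R h2R h9 i ≤ y →
        ∃ t' ∈ Pc9 A hA K hK hζ₂ R h2R h9 i, ∀ x ∈ Pc9 A hA K hK hζ₂ R h2R h9 i,
          ∃ s : B2, s ∉ y ∧ s * x ∈ Ideal.span {t'} := by
  haveI : Fact (Nat.Prime 2) := ⟨Nat.prime_two⟩
  haveI := Coord9.charP_two K A hA
  exact CuspInstW9.hcusp_w9 ψ φ hψφ ϖ hϖ 2 α₁ β₁ σ₁ hσ₁O hσ₁frac u' UU hσ₁u hσ₁β w₁ hw₁O hw₁α
    hw₁β α₂ β₂ hα₂O hβ₂O σ hσO hσfrac hσα₂ hσβ₂ σ₀ hσ₀O hσ₀frac hσ₀α₂ σm hσmO hσmfrac z₀ hz₀
    hσmα₂ hσmβ₂ hcomm (hwu_u9E R K h9) (hyp9_w A hA K hK hζ₂ R h2R h9 z hz hzK) (jE R K)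
    (Fermat.Agent.S34.Sat.sigma_alpha_jE R 2 K) (jE_mul_u9E R K h9 (jE R K) rfl)
    (isUnit_three_OE A hA (by norm_num) K) 1 isUnit_one (mul_one _).symm
    (tZero (alphaSq R 2 K u')) rfl

end Fermat.Agent.S36.KInst9
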