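import Mathlib
import Fermat.Agent.S36.KInst9.U9
import Fermat.Agent.S36.SqChart.HypBridgeW
import Fermat.Agent.S36.ECall.Red

/-!
# S36, the `q = 2` assembler: the level-`R · 2` special fibre at `u₉` is reduced

`red9` : `p_∞ ∩ p_0 = (2)` in the level-`R · 2` chart ring of `α₁ u₉` (the binder `red` of
`KInst9.holds_of_chart_two` at the objects of `KInst9/U9`): `ECall.Red.red_chart` at `u₉`, through
the identifications `HypBridgeW.pInf_eq`, `HypBridgeW.pZero_eq` of the two vocabularies.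

`pc9_one_eq`, `pc9_zero_eq`, `Pc9_zero_eq`, `Pc9_one_eq`, `Pc9_two_eq` : the vertical primes of
`KInst9/U9` are the primes `HypE.pInf`, `HypE.pZero`, `HypE.PZero`, `HypE.PInf`, `HypE.PMid` of
`SqChart/HypE` (the vocabulary of the producers of the remaining chart facts).
-/

set_option autoImplicit false
set_option linter.unusedSectionVars false
set_option linter.unusedVariables false
set_option linter.style.haveILetI false
set_option synthInstance.maxHeartbeats 400000
set_option maxHeartbeats 1000000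

open ModularCurve Polynomial

noncomputable section

namespace Fermat.Agent.S36.KInst9

open Fermat.Agent.S30 Fermat.Agent.S30.CSide
open Fermat.Agent.S18.K1Defs Fermat.Agent.S18.K1Main
open Fermat.Agent.S34.TwoPrimesGauss Fermat.Agent.S34.TwoPrimesRank
open Fermat.Agent.S34.HauptU.Plug
open Fermat.Agent.S36.SqChart Fermat.Agent.S36.MultPrimesGauss Fermat.Agent.S36.CycloBase
open Fermat.Agent.S36.SqRankE Fermat.Agent.S36.SqChart.InstA
open Fermat.Agent.S36.Haupt9
open Fermat.Agent.S34.Nodal (Overlap toOverlapZero toOverlapInf)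
open Fermat.Agent.S34.Nodal.ChartTransfer (tZero)

local notation "Qb" => AlgebraicClosure ℚ

attribute [local instance] InstA.algL InstA.towerL

variable (A : ValuationSubring Qb) (hA : A.LiesOverPrime 2)
  (K : IntermediateField ℚ Qb) [FiniteDimensional ℚ K]
  (hK : A.inertiaSubgroupIn ℚ ≤ K.fixingSubgroup) {ζ₂ : Qb} (hζ₂ : IsPrimitiveRoot ζ₂ 2)
  [IsDiscreteValuationRing (OE A K)] [IsDiscreteValuationRing (OE A (cyclo K ζ₂))]
  (R : ℕ) [NeZero R] (h2R : ¬ 2 ∣ R) (h9 : 9 ∣ R)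
  (z : Qb) (hz : IsPrimitiveRoot z R) (hzK : z ∈ K)

/-- `Pc9 0` is the prime `HypE.PZero` of `SqChart/HypE`. -/
theorem Pc9_zero_eq :
    Pc9 A hA K hK hζ₂ R h2R h9 0
      = HypE.PZero A Nat.prime_two hA K hK R h2R (u9E R K h9) (u9 (OE A K)) (hU9 A K R h9) :=
  (Pc9_zero A hA K hK hζ₂ R h2R h9).trans
    (HypBridgeW.PZero_eq A Nat.prime_two hA K hK R h2R (u9E R K h9) (u9 (OE A K))
      (hU9 A K R h9)).symm

/-- `Pc9 1` is the prime `HypE.PInf` of `SqChart/HypE`. -/
theorem Pc9_one_eq :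
    Pc9 A hA K hK hζ₂ R h2R h9 1
      = HypE.PInf A Nat.prime_two hA K hK R (u9E R K h9) (u9 (OE A K)) (hU9 A K R h9) :=
  (Pc9_one A hA K hK hζ₂ R h2R h9).trans
    (HypBridgeW.PInf_eq A Nat.prime_two hA K hK R (u9E R K h9) (u9 (OE A K)) (hU9 A K R h9)).symm

/-- `Pc9 2` is the prime `HypE.PMid` of `SqChart/HypE`. -/
theorem Pc9_two_eq :
    Pc9 A hA K hK hζ₂ R h2R h9 2
      = HypE.PMid A Nat.prime_two hA K hK hζ₂ R h2R (u9E R K h9) (u9 (OE A K)) (hU9 A K R h9) :=
  (Pc9_two A hA K hK hζ₂ R h2R h9).trans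
    (HypBridgeW.PMid_eq A Nat.prime_two hA K hK hζ₂ R h2R (u9E R K h9) (u9 (OE A K))
      (hU9 A K R h9)).symm

/-- `pc9 1` is the prime `HypE.pInf` of `SqChart/HypE`. -/
theorem pc9_one_eq :
    pc9 A hA K hK R h2R h9 1
      = HypE.pInf A Nat.prime_two hA K hK R (u9E R K h9) (u9 (OE A K)) (hU9 A K R h9) :=
  (pc9_one A hA K hK R h2R h9).trans
    (HypBridgeW.pInf_eq A Nat.prime_two hA K hK R (u9E R K h9) (u9 (OE A K)) (hU9 A K R h9)).symm

/-- `pc9 0` is the prime `HypE.pZero` of `SqChart/HypE`. -/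
theorem pc9_zero_eq :
    pc9 A hA K hK R h2R h9 0
      = HypE.pZero A Nat.prime_two hA K hK R h2R (u9E R K h9) (u9 (OE A K)) (hU9 A K R h9) :=
  (pc9_zero A hA K hK R h2R h9).trans
    (HypBridgeW.pZero_eq A Nat.prime_two hA K hK R h2R (u9E R K h9) (u9 (OE A K))
      (hU9 A K R h9)).symm

include hz hzK in
set_option maxHeartbeats 4000000 in
/-- **The level-`R · 2` special fibre is reduced**: `p_∞ ∩ p_0 = (2)`. -/
theorem red9 :
    pc9 A hA K hK R h2R h9 1 ⊓ pc9 A hA K hK R h2R h9 0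
      ≤ Ideal.span {algebraMap (OE A K)
        (Fermat.Agent.S34.Nodal.Chart (OE A K) (alphaHom R 2 K (u9E R K h9)))
        ((2 : ℕ) : OE A K)} := by
  haveI := Coord9.finite_u9E R K h9
  haveI := Coord9.charP_two K A hA
  have h := Fermat.Agent.S36.ECall.Red.red_chart A Nat.prime_two hA K hK R h2R (u9E R K h9)
    (u9 (OE A K)) (hU9 A K R h9)
    ((HypBridgeW.hwu_iff A Nat.prime_two K R h2R (u9E R K h9)).2 (hwu_u9E R K h9))
    (Coord9.hprime_u9 R K A hA h9 h2R z hz hzK ((2 : ℕ) : OE A K)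
      (InstA.irreducible_q A Nat.prime_two hA K hK))
    (Coord9.hcop_u9 2) Coord9.hord_u9 (qExpand_rho_u9 2 Nat.prime_two)
  intro c hc
  exact h (Ideal.mem_inf.2 ⟨(pc9_one_eq A hA K hK R h2R h9).le (Ideal.mem_inf.1 hc).1,
    (pc9_zero_eq A hA K hK R h2R h9).le (Ideal.mem_inf.1 hc).2⟩)

end Fermat.Agent.S36.KInst9
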