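import Mathlib
import Fermat.Agent.S36.KInst9.U9
import Fermat.Agent.S36.KInst9.Red9
import Fermat.Agent.S36.KInst9.Cusp9
import Fermat.Agent.S36.SqChart.Rad9
import Fermat.Agent.S36.C1Inst9W
import Fermat.Agent.S36.ECall.ObjInf9
import Fermat.Agent.S36.ECall.Inf9

/-!
# S36, the `q = 2` assembler, layer 2: `KLevel.Holds` at `u₉` from the one debt at infinity

Objects of `KInst9/U9` (`O = OE A K`, `A` over `2`, levels `R`, `R · 2`, `R · 2 · 2`,
`u' = Haupt9.u9E R K h9`, `u₁ = α₁ u'`, `u₂ = α₂ α₁ u'`, vertical primes `pc9`, `Pc9`).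

Everything but the separation at infinity is discharged here:

* `h`     : `KInst9.hyp9` (the C2 exit `SqInstW.hypE` at `u₉`);
* `red`   : `KInst9.red9`;
* `hded`, `hradα`, `hradβ` : `SqChart/Rad9` (chart-prime forms), for `K` stable under a
  Frobenius element of `A`;
* `h0`    : `C1Inst9W.h0_binder_w9` (thickness one at the good triple points);
* `hcusp` : `KInst9.hcusp9`;
* the chart maps at infinity : `ECall/ObjInf9`;
* `hreg`  : `ECall/Inf9` (`reg9`).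

What is left is one named proposition on the chart rings:

* `Sep9` : no closed point over `u₂⁻¹ = 0` lies on two components (`hsep`);
* `holds_u9` : `Sep9 → KLevel.Holds 2 ζ 2 m 6 u₂ u₁ u₁ NaE NbE`.
-/

set_option autoImplicit false
set_option linter.unusedSectionVars false
set_option linter.unusedVariables false
set_option linter.style.haveILetI false
set_option synthInstance.maxHeartbeats 400000
set_option maxHeartbeats 1000000

open ModularCurve Polynomial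

noncomputable section

namespace Fermat.Agent.S36.KInst9

open Fermat.Agent.S30 Fermat.Agent.S30.CSide
open Fermat.Agent.S18.K1Defs Fermat.Agent.S18.K1Main
open Fermat.Agent.S34.TwoPrimesGauss Fermat.Agent.S34.TwoPrimesRank
open Fermat.Agent.S34.HauptU.Plug
open Fermat.Agent.S36.SqChart Fermat.Agent.S36.MultPrimesGauss Fermat.Agent.S36.CycloBase
open Fermat.Agent.S36.SqRankE Fermat.Agent.S36.SqChart.InstA
open Fermat.Agent.S36.Haupt9
open Fermat.Agent.S34.Nodal (Overlap toOverlapZero toOverlapInf)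
open Fermat.Agent.S34.Nodal.ChartTransfer (tZero)

local notation "Qb" => AlgebraicClosure ℚ

attribute [local instance] InstA.algL InstA.towerL

variable (A : ValuationSubring Qb) (hA : A.LiesOverPrime 2)
  (K : IntermediateField ℚ Qb) [FiniteDimensional ℚ K]
  (hK : A.inertiaSubgroupIn ℚ ≤ K.fixingSubgroup) {ζ₂ : Qb} (hζ₂ : IsPrimitiveRoot ζ₂ 2)
  [IsDiscreteValuationRing (OE A K)] [IsDiscreteValuationRing (OE A (cyclo K ζ₂))]
  (R : ℕ) [NeZero R] (h2R : ¬ 2 ∣ R) (h9 : 9 ∣ R)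
  (z : Qb) (hz : IsPrimitiveRoot z R) (hzK : z ∈ K)

local notation "u'" => u9E R K h9
local notation "B1" => Fermat.Agent.S34.Nodal.Chart (OE A K) (alphaHom R 2 K (u9E R K h9))
local notation "B2" => Fermat.Agent.S34.Nodal.Chart (OE A K) (alphaSq R 2 K (u9E R K h9))
local notation "Gq" => (AlgebraicClosure ℚ ≃ₐ[ℚ] AlgebraicClosure ℚ)

/-! ### The fibre at infinity: the debt `Sep9`, and `Reg9` -/

/-- **Debt (Sep)**: for overlap primes over `Pc9`, `pc9`: no closed point of the chart `u₂⁻¹`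
over `u₂⁻¹ = 0` lies on two different components. -/
def Sep9 : Prop :=
  ∀ (P : Fin 3 → Ideal (Overlap (OE A K) (alphaSq R 2 K u')))
    (p : Fin 2 → Ideal (Overlap (OE A K) (alphaHom R 2 K u'))),
    (∀ i, (P i).IsPrime) → (∀ j, (p j).IsPrime) →
    (∀ i, (P i).comap (toOverlapZero (OE A K) (alphaSq R 2 K u'))
      = Pc9 A hA K hK hζ₂ R h2R h9 i) →
    (∀ j, (p j).comap (toOverlapZero (OE A K) (alphaHom R 2 K u')) = pc9 A hA K hK R h2R h9 j) →
    ∀ M : Ideal (Fermat.Agent.S34.Nodal.Chart (OE A K) (alphaSq R 2 K u')⁻¹), M.IsMaximal →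
      Fermat.Agent.S30.Model.ChartInf.tInf (alphaSq R 2 K u') ∈ M → ∀ i j, i ≠ j →
      (P i).comap (toOverlapInf (OE A K) (alphaSq R 2 K u')) ≤ M →
      (P j).comap (toOverlapInf (OE A K) (alphaSq R 2 K u')) ≤ M → False

/-- **(Reg)**: for overlap primes over `Pc9`, `pc9`: each component is regular at the
closed points of the chart `u₂⁻¹` over `u₂⁻¹ = 0`. -/
def Reg9 : Prop :=
  ∀ (P : Fin 3 → Ideal (Overlap (OE A K) (alphaSq R 2 K u')))
    (p : Fin 2 → Ideal (Overlap (OE A K) (alphaHom R 2 K u'))),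
    (∀ i, (P i).IsPrime) → (∀ j, (p j).IsPrime) →
    (∀ i, (P i).comap (toOverlapZero (OE A K) (alphaSq R 2 K u'))
      = Pc9 A hA K hK hζ₂ R h2R h9 i) →
    (∀ j, (p j).comap (toOverlapZero (OE A K) (alphaHom R 2 K u')) = pc9 A hA K hK R h2R h9 j) →
    ∀ M : Ideal (Fermat.Agent.S34.Nodal.Chart (OE A K) (alphaSq R 2 K u')⁻¹), M.IsMaximal →
      Fermat.Agent.S30.Model.ChartInf.tInf (alphaSq R 2 K u') ∈ M → ∀ i,
      (P i).comap (toOverlapInf (OE A K) (alphaSq R 2 K u')) ≤ M →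
      ∃ θ ∈ M, ∀ y ∈ M, ∃ c, c ∉ M ∧
        c * y ∈ (P i).comap (toOverlapInf (OE A K) (alphaSq R 2 K u')) ⊔ Ideal.span {θ}

include hz hzK in
set_option maxHeartbeats 4000000 in
/-- **(Reg) at `u₉`**: `ECall.Inf9.hreg_u9_of_comap` at the chart primes `Pc9`. -/
theorem reg9 : Reg9 A hA K hK hζ₂ R h2R h9 := by
  intro P p hP hp e1 e2
  haveI := hP
  exact ECall.Inf9.hreg_u9_of_comap A hA K hK hζ₂ R h2R h9 z hz hzK (Pc9 A hA K hK hζ₂ R h2R h9)
    (Pc9_zero_eq A hA K hK hζ₂ R h2R h9) (Pc9_one_eq A hA K hK hζ₂ R h2R h9)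
    (Pc9_two_eq A hA K hK hζ₂ R h2R h9) P e1

/-! ### The contract -/

include hz hzK in
set_option maxHeartbeats 4000000 in
/-- **`KLevel.Holds` at `q = 2` for the chart coordinate `u₉`**, from the separation at
infinity, for a base field `K` stable under a Frobenius element of `A`. -/
theorem holds_u9
    (hfrob : ∃ φ : Gq, A.IsFrobeniusAt φ 2 ∧ Fermat.Agent.S36.StableBase.Stable K φ)
    (ζ : OE A K) (m : ℕ) (hm : Nat.Coprime 2 m) (hm0 : m ≠ 0)
    (hsep : Sep9 A hA K hK hζ₂ R h2R h9) :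
    Fermat.Agent.S36.KLevel.Holds ((2 : ℕ) : OE A K) ζ 2 m 6 (alphaSq R 2 K u')
      (alphaHom R 2 K u') (alphaHom R 2 K u') (Fermat.Agent.S36.NormEPack.NaE (R * 2) 2 K)
      (Fermat.Agent.S36.NormEPack.NbE (R * 2) 2 K) := by
  obtain ⟨φ, hφ, hst⟩ := hfrob
  haveI := finite_alphaSq_u9E R 2 K h9
  haveI := finite_alpha_u9E R 2 K h9
  have h4 : ¬ 2 ^ 2 ∣ R * 2 := by
    rintro ⟨c, hc⟩
    exact h2R ⟨c, by omega⟩
  have hyp := hyp9 A hA K hK hζ₂ R h2R h9 z hz hzK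
  exact holds_of_chart_two (R * 2) K (Dvd.intro_left R rfl) h4 ((2 : ℕ) : OE A K) ζ
    (InstA.irreducible_q A Nat.prime_two hA K hK) m hm hm0 dvd_rfl
    (alphaSq R 2 K u') (transcendental_alphaSq_u9E R 2 K h9) (alphaHom R 2 K u')
    (transcendental_alpha_u9E R 2 K h9) (Pc9 A hA K hK hζ₂ R h2R h9) (pc9 A hA K hK R h2R h9)
    (hPc9 A hA K hK hζ₂ R h2R h9 z hz hzK) (hpc9 A hA K hK R h2R h9)
    (SqInstW.alphaC (q := 2) A K R u') (SqInstW.coe_alphaC (q := 2) A K R u')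
    (ECall.ObjInf9.phiA1_u9 A K R h9) (ECall.ObjInf9.coe_phiA1_u9 A K R h9)
    (ECall.ObjInf9.phiA1_isIntegral_u9 A K R h9)
    (SqInstW.betaC (q := 2) A K R u' (hwu_u9E R K h9))
    (SqInstW.coe_betaC (q := 2) A K R u' (hwu_u9E R K h9))
    (ECall.ObjInf9.phiB1_u9 A K R h9) (ECall.ObjInf9.coe_phiB1_u9 A K R h9)
    (ECall.ObjInf9.phiB1_isIntegral_u9 A K R h9)
    hyp (red9 A hA K hK R h2R h9 z hz hzK)
    (Rad9.hded_chart_u9 A Nat.prime_two hA K hK hζ₂ R h9 h2R z hz hzK (hU9 A K R h9)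
      (Pc9 A hA K hK hζ₂ R h2R h9) (Pc9_zero_eq A hA K hK hζ₂ R h2R h9)
      (Pc9_one_eq A hA K hK hζ₂ R h2R h9) (Pc9_two_eq A hA K hK hζ₂ R h2R h9))
    (Rad9.hradα_chart_u9 A Nat.prime_two hA K hK hζ₂ R h9 h2R z hz hzK (hU9 A K R h9) hφ hst
      (SqInstW.alphaC (q := 2) A K R u') (SqInstW.coe_alphaC (q := 2) A K R u')
      (Pc9 A hA K hK hζ₂ R h2R h9 0) (Pc9_zero_eq A hA K hK hζ₂ R h2R h9))
    (Rad9.hradβ_chart_u9 A Nat.prime_two hA K hK hζ₂ R h9 h2R z hz hzK (hU9 A K R h9) hφ hst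
      (SqInstW.betaC (q := 2) A K R u' (hwu_u9E R K h9))
      (SqInstW.coe_betaC (q := 2) A K R u' (hwu_u9E R K h9))
      (Pc9 A hA K hK hζ₂ R h2R h9 1) (Pc9_one_eq A hA K hK hζ₂ R h2R h9))
    (fun y => tZero (O := OE A K) (alphaSq R 2 K u')
      * (tZero (O := OE A K) (alphaSq R 2 K u') ^ 2
        + 9 * tZero (O := OE A K) (alphaSq R 2 K u') + 27) ∉ y)
    (Fermat.Agent.S36.C1Inst9W.h0_binder_w9 A Nat.prime_two hA K hK R h9 h2R z hz hzK
      (hU9 A K R h9) (Pc9 A hA K hK hζ₂ R h2R h9) (pc9 A hA K hK R h2R h9)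
      (pc9_zero A hA K hK R h2R h9) (SqInstW.betaC (q := 2) A K R u' (hwu_u9E R K h9)) _ 1 hyp)
    (hcusp9 A hA K hK hζ₂ R h2R h9 z hz hzK)
    (fun P p hP hp e1 e2 => ⟨hsep P p hP hp e1 e2,
      reg9 A hA K hK hζ₂ R h2R h9 z hz hzK P p hP hp e1 e2⟩)

end Fermat.Agent.S36.KInst9
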