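import Mathlib
import Fermat.Agent.S36.KInst9.Holds
import Fermat.Agent.S36.KTop
import Fermat.Agent.S36.KBase

/-!
# S36, the `q = 2` assembler, layer 3: the argument `htwo` of `KTop.coreExit_of_levels`

* `DebtInf9` : the debt at infinity (`Sep9` of `KInst9/Holds`) for every valuation ring `A` of
  `ℚ̄` over `2`, every number field `K` inside the inertia field of `A` with `ζ_R ∈ K`, every
  level `R` with `9 ∣ R`, `2 ∤ R`;
* `holds_top9` : `DebtInf9 →` the contract `KLevel.Holds` at `u₉` over `O = A ∩ E'` for every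
  member `E'` of the geometric class `GeomClass A (R · pⁿ) ∅` (the base line is `S36/KBase`);
* `htwo_of_debt` : `DebtInf9 → ∀ p R, p prime → 2 ≠ p → 2 ∤ R → 9 ∣ R → ModKAt 2 p (R · 2)`,
  i.e. the argument `htwo` of `KTop.coreExit_of_levels` (`KTop.modKAt_of_forall_place` with
  `N₀ = R`, `S₀ = ∅`, `C₀ = 6`, chart coordinates `u = α₂ α₁ u₉`, `u₁ = α₁ u₉`).
-/

set_option autoImplicit false
set_option linter.unusedSectionVars false
set_option linter.unusedVariables false
set_option linter.style.haveILetI false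
set_option synthInstance.maxHeartbeats 400000
set_option maxHeartbeats 1000000

open ModularCurve Polynomial

noncomputable section

namespace Fermat.Agent.S36.KInst9

open Fermat.Agent.S30 Fermat.Agent.S30.CSide
open Fermat.Agent.S18.K1Defs Fermat.Agent.S18.K1Main
open Fermat.Agent.S34.TwoPrimesGauss Fermat.Agent.S34.TwoPrimesRank
open Fermat.Agent.S36.SqChart Fermat.Agent.S36.CycloBase
open Fermat.Agent.S36.SqRankE Fermat.Agent.S36.SqChart.InstA
open Fermat.Agent.S36.Haupt9

local notation "Qb" => AlgebraicClosure ℚ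

attribute [local instance] InstA.algL InstA.towerL

/-- **The debt at infinity of the `q = 2` chain** (separation of the three components over
`u⁻¹ = 0`), for all base data. -/
def DebtInf9 : Prop :=
  ∀ (A : ValuationSubring Qb) (hA : A.LiesOverPrime 2) (K : IntermediateField ℚ Qb)
    [FiniteDimensional ℚ K] (hK : A.inertiaSubgroupIn ℚ ≤ K.fixingSubgroup) {ζ₂ : Qb}
    (hζ₂ : IsPrimitiveRoot ζ₂ 2) [IsDiscreteValuationRing (OE A K)]
    [IsDiscreteValuationRing (OE A (cyclo K ζ₂))] (R : ℕ) [NeZero R] (h2R : ¬ 2 ∣ R)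
    (h9 : 9 ∣ R) (z : Qb), IsPrimitiveRoot z R → z ∈ K →
    Sep9 A hA K hK hζ₂ R h2R h9

set_option maxHeartbeats 4000000 in
/-- The contract at one member of the geometric class. -/
theorem holds_top9 (hdebt : DebtInf9) (A : ValuationSubring Qb) (p R : ℕ) [NeZero R]
    (hp : p.Prime) (h2p : 2 ≠ p) (h2R : ¬ 2 ∣ R) (h9 : 9 ∣ R) (hA : A.LiesOverPrime 2) (n : ℕ)
    (E' : IntermediateField ℚ Qb)
    (hG : Fermat.Agent.S36.GeomClass.GeomClass A (R * p ^ n) ∅ E') (ζ : OE A E') :
    Fermat.Agent.S36.KLevel.Holds ((2 : ℕ) : OE A E') ζ 2 (p ^ n) 6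
      (alphaSq R 2 E' (u9E R E' h9)) (alphaHom R 2 E' (u9E R E' h9))
      (alphaHom R 2 E' (u9E R E' h9)) (Fermat.Agent.S36.NormEPack.NaE (R * 2) 2 E')
      (Fermat.Agent.S36.NormEPack.NbE (R * 2) 2 E') := by
  haveI := KBase.finiteDimensional hG
  haveI := KBase.isDVR hG Nat.prime_two hA
  have hK := KBase.le_fixingSubgroup hG
  have hN : R * p ^ n ≠ 0 := Nat.mul_ne_zero (NeZero.ne R) (pow_ne_zero n hp.ne_zero)
  obtain ⟨z, hz, hzK⟩ := KBase.exists_root hG hN (d := R) (Dvd.intro _ rfl)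
  obtain ⟨ζq, hζq⟩ := KBase.exists_zeta_q Nat.prime_two
  haveI := KBase.isDVR_cyclo hG Nat.prime_two hA ζq
  have hsep := hdebt A hA E' hK hζq R h2R h9 z hz hzK
  exact holds_u9 A hA E' hK hζq R h2R h9 z hz hzK (KBase.exists_frob hG Nat.prime_two hA) ζ
    (p ^ n) (Nat.Coprime.pow_right n ((Nat.coprime_primes Nat.prime_two hp).mpr h2p))
    (pow_ne_zero n hp.ne_zero) hsep

set_option maxHeartbeats 4000000 in
/-- **The case `q = 2` of the core exit, from the debt at infinity**: the argument `htwo`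
of `KTop.coreExit_of_levels`. -/
theorem htwo_of_debt (hdebt : DebtInf9) (p R : ℕ) [NeZero R] (hp : p.Prime) (h2p : 2 ≠ p)
    (h2R : ¬ 2 ∣ R) (h9 : 9 ∣ R) : Fermat.Agent.S36.CoreOfK.ModKAt 2 p (R * 2) := by
  refine KTop.modKAt_of_forall_place 2 p R Nat.prime_two hp h2p fun A hA =>
    ⟨R, ∅, 6, h2R, fun s hs => absurd hs (Finset.notMem_empty s), by norm_num, ?_⟩
  intro n E' hG ζ hζ hζL
  exact ⟨alphaSq R 2 E' (u9E R E' h9), alphaHom R 2 E' (u9E R E' h9),
    transcendental_alphaSq_u9E R 2 E' h9, finite_alphaSq_u9E R 2 E' h9,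
    finite_alpha_u9E R 2 E' h9,
    Or.inl ⟨fun h0 => transcendental_alpha_u9E R 2 E' h9 (h0 ▸ isAlgebraic_zero),
      holds_top9 hdebt A p R hp h2p h2R h9 hA n E' hG ζ⟩⟩

end Fermat.Agent.S36.KInst9
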